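import Fermat.Agent.S14.Jacobi.ResChar

/-!
# S14 / Jacobi: Galois action on Jacobi sums, `J · J̄ = q`, and the norm (worker file)
-/

set_option autoImplicit false

namespace Fermat.Agent.S14.Jacobi

open NumberField Ideal Pointwise

variable {p : ℕ} [Fact p.Prime] {K : Type} [Field K] [NumberField K]
  [IsCyclotomicExtension {p} ℚ K] {F : Type} [Field F] [Fintype F] {π : 𝓞 K →+* F} {q : ℕ}

/-- The action of `τ` on `ζ` as an element of `𝓞 K`. -/
theorem Conj.aux_smul_zeta (τ : K ≃ₐ[ℚ] K) (t : ℕ)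
    (ht : τ (IsCyclotomicExtension.zeta p ℚ K) = IsCyclotomicExtension.zeta p ℚ K ^ t) :
    τ • (IsCyclotomicExtension.zeta_spec p ℚ K).toInteger =
      (IsCyclotomicExtension.zeta_spec p ℚ K).toInteger ^ t := by
  apply RingOfIntegers.ext
  have h1 : ((τ • (IsCyclotomicExtension.zeta_spec p ℚ K).toInteger : 𝓞 K) : K) =
      τ (IsCyclotomicExtension.zeta p ℚ K) := rfl
  have h2 : (((IsCyclotomicExtension.zeta_spec p ℚ K).toInteger ^ t : 𝓞 K) : K) =
      IsCyclotomicExtension.zeta p ℚ K ^ t := by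
    rw [RingOfIntegers.coe_eq_algebraMap, map_pow]
    rfl
  rw [h1, h2, ht]

/-- For `k` prime to `p` there is an automorphism of the `p`-th cyclotomic field with
`ζ ↦ ζ^k`. -/
theorem Conj.aux_exists_aut_zeta_pow (p : ℕ) [Fact p.Prime]
    (K : Type) [Field K] [NumberField K] [IsCyclotomicExtension {p} ℚ K] (k : ℕ) (hk : ¬ p ∣ k) :
    ∃ σ : K ≃ₐ[ℚ] K,
      σ (IsCyclotomicExtension.zeta p ℚ K) = IsCyclotomicExtension.zeta p ℚ K ^ k := by
  have hp : p.Prime := Fact.out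
  have hcop : k.Coprime p := ((Nat.Prime.coprime_iff_not_dvd hp).mpr hk).symm
  have hμ : IsPrimitiveRoot (IsCyclotomicExtension.zeta p ℚ K ^ k) p :=
    (IsCyclotomicExtension.zeta_spec p ℚ K).pow_of_coprime k hcop
  have hirr : Irreducible (Polynomial.cyclotomic p ℚ) :=
    Polynomial.cyclotomic.irreducible_rat hp.pos
  exact ⟨IsCyclotomicExtension.fromZetaAut hμ hirr,
    IsCyclotomicExtension.fromZetaAut_spec hμ hirr⟩

/-- Conjugate integers generate ideals of the same norm. -/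
theorem Conj.aux_absNorm_span_conj (K : Type) [Field K] [NumberField K] (σ : K ≃ₐ[ℚ] K)
    (x y : 𝓞 K) (h : (y : K) = σ (x : K)) : absNorm (span {y}) = absNorm (span {x}) := by
  rw [Ideal.absNorm_span_singleton, Ideal.absNorm_span_singleton]
  congr 1
  apply Int.cast_injective (α := ℚ)
  rw [Algebra.coe_norm_int, Algebra.coe_norm_int, h, Algebra.norm_eq_of_algEquiv]

/-- The absolute norm of the ideal generated by a natural number. -/
theorem Conj.aux_absNorm_span_natCast (K : Type) [Field K] [NumberField K] (n : ℕ) :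
    absNorm (span {(n : 𝓞 K)}) = n ^ Module.finrank ℚ K := by
  have h : (n : 𝓞 K) = algebraMap ℤ (𝓞 K) (n : ℤ) := by simp
  rw [Ideal.absNorm_span_singleton, h, Algebra.norm_algebraMap, RingOfIntegers.rank,
    Int.natAbs_pow, Int.natAbs_natCast]

omit [IsCyclotomicExtension {p} ℚ K] in
/-- `χ² ≠ 1` for a residue character (`p` odd). -/
theorem Conj.aux_sq_ne_one (hp2 : p ≠ 2) {χ : MulChar F (𝓞 K)} (hχ : IsResChar p π q χ) :
    χ ^ 2 ≠ 1 := by
  have hp : p.Prime := Fact.out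
  intro h2
  rcases hp.eq_two_or_odd' with h | ⟨k, hk⟩
  · exact hp2 h
  · have h3 := hχ.pow_eq_one
    rw [hk, pow_succ, pow_mul, h2, one_pow, one_mul] at h3
    exact hχ.ne_one h3

/-- If `τ ζ = ζ^t` and all nonzero values of `χ` are powers of `ζ`, then
`τ • J(χ, χ) = J(χ^t, χ^t)` (`p ∤ t`). -/
theorem smul_jacobiSum (χ : MulChar F (𝓞 K))
    (hval : ∀ x : F, x ≠ 0 →
      ∃ i : ℕ, χ x = (IsCyclotomicExtension.zeta_spec p ℚ K).toInteger ^ i)
    (τ : K ≃ₐ[ℚ] K) (t : ℕ) (ht0 : t ≠ 0)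
    (ht : τ (IsCyclotomicExtension.zeta p ℚ K) = IsCyclotomicExtension.zeta p ℚ K ^ t) :
    τ • jacobiSum χ χ = jacobiSum (χ ^ t) (χ ^ t) := by
  have key : ∀ y : F, τ • χ y = (χ ^ t) y := by
    intro y
    rw [MulChar.pow_apply' χ ht0 y]
    by_cases hy : y = 0
    · subst hy
      rw [MulChar.map_zero, smul_zero, zero_pow ht0]
    · obtain ⟨i, hi⟩ := hval y hy
      rw [hi, smul_pow', Conj.aux_smul_zeta τ t ht, ← pow_mul, ← pow_mul, mul_comm]
  unfold jacobiSum
  rw [Finset.smul_sum]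
  refine Finset.sum_congr rfl (fun x _ => ?_)
  rw [smul_mul', key, key]

set_option linter.unusedSectionVars false in
/-- `J(χ,χ) · J(χ⁻¹,χ⁻¹) = q` in `𝓞 K` (`p` odd, so `χ² ≠ 1`). -/
theorem jacobiSum_mul_jacobiSum_inv' (hp2 : p ≠ 2) (h : IsDegOne p π q)
    {χ : MulChar F (𝓞 K)} (hχ : IsResChar p π q χ) :
    jacobiSum χ χ * jacobiSum χ⁻¹ χ⁻¹ = (q : 𝓞 K) := by
  have hp : p.Prime := Fact.out
  have hinj : Function.Injective (algebraMap (𝓞 K) K) :=
    FaithfulSMul.algebraMap_injective (𝓞 K) K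
  have h1 : χ.ringHomComp (algebraMap (𝓞 K) K) ≠ 1 :=
    (MulChar.ringHomComp_ne_one_iff hinj).mpr hχ.ne_one
  have h2 : χ.ringHomComp (algebraMap (𝓞 K) K) * χ.ringHomComp (algebraMap (𝓞 K) K) ≠ 1 := by
    rw [← pow_two, MulChar.ringHomComp_pow]
    exact (MulChar.ringHomComp_ne_one_iff hinj).mpr (Conj.aux_sq_ne_one hp2 hχ)
  have hchar : ringChar K ≠ ringChar F := by
    rw [ringChar.eq_zero]
    exact (CharP.ringChar_ne_zero_of_finite F).symm
  have h3 := jacobiSum_mul_jacobiSum_inv hchar h1 h1 h2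
  rw [MulChar.ringHomComp_inv, jacobiSum_ringHomComp, jacobiSum_ringHomComp, ← map_mul,
    h.card] at h3
  apply hinj
  rw [h3, map_natCast]

/-- The absolute norm of the ideal generated by `J(χ,χ)` is `q^((p-1)/2)`. -/
theorem absNorm_span_jacobiSum (hp2 : p ≠ 2) (h : IsDegOne p π q)
    {χ : MulChar F (𝓞 K)} (hχ : IsResChar p π q χ)
    (hval : ∀ x : F, x ≠ 0 →
      ∃ i : ℕ, χ x = (IsCyclotomicExtension.zeta_spec p ℚ K).toInteger ^ i) :
    absNorm (span {jacobiSum χ χ}) = q ^ ((p - 1) / 2) := by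
  have hp : p.Prime := Fact.out
  have hp2' : 2 ≤ p := hp.two_le
  have hinv : χ⁻¹ = χ ^ (p - 1) := by
    apply inv_eq_of_mul_eq_one_left
    rw [← pow_succ, Nat.sub_add_cancel hp.one_le, hχ.pow_eq_one]
  have hndvd : ¬ p ∣ p - 1 := fun hdvd => by
    have := Nat.le_of_dvd (by omega) hdvd
    omega
  obtain ⟨τ, hτ⟩ := Conj.aux_exists_aut_zeta_pow p K (p - 1) hndvd
  have hJ' : jacobiSum χ⁻¹ χ⁻¹ = τ • jacobiSum χ χ := by
    rw [hinv, smul_jacobiSum χ hval τ (p - 1) (by omega) hτ]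
  have hconj : absNorm (span {jacobiSum χ⁻¹ χ⁻¹}) = absNorm (span {jacobiSum χ χ}) := by
    apply Conj.aux_absNorm_span_conj K τ
    rw [hJ']
    rfl
  have hmul : absNorm (span {jacobiSum χ χ}) * absNorm (span {jacobiSum χ⁻¹ χ⁻¹}) =
      q ^ (p - 1) := by
    rw [← map_mul, Ideal.span_singleton_mul_span_singleton, jacobiSum_mul_jacobiSum_inv' hp2 h hχ,
      Conj.aux_absNorm_span_natCast,
      IsCyclotomicExtension.finrank K (Polynomial.cyclotomic.irreducible_rat hp.pos),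
      Nat.totient_prime hp]
  rw [hconj] at hmul
  have hodd : p - 1 = ((p - 1) / 2) * 2 := by
    rcases hp.eq_two_or_odd' with h2 | ⟨k, hk⟩
    · exact absurd h2 hp2
    · omega
  have hsq : absNorm (span {jacobiSum χ χ}) ^ 2 = (q ^ ((p - 1) / 2)) ^ 2 := by
    rw [pow_two, hmul, ← pow_mul, ← hodd]
  exact Nat.pow_left_injective (by norm_num) hsq

end Fermat.Agent.S14.Jacobi
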