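import Fermat.Agent.S14.Jacobi.Defs

/-!
# S14 / Jacobi: the conjugates of a degree one prime are pairwise distinct (worker file)
-/

set_option autoImplicit false
set_option linter.unusedSectionVars false

namespace Fermat.Agent.S14.Jacobi

open NumberField Ideal Pointwise

variable {p : ℕ} [Fact p.Prime] {K : Type} [Field K] [NumberField K]
  [IsCyclotomicExtension {p} ℚ K] {F : Type} [Field F] [Fintype F] {π : 𝓞 K →+* F} {q : ℕ}

/-- `ker π` is a maximal ideal of absolute norm `q`. -/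
theorem IsDegOne.isMaximal_ker (h : IsDegOne p π q) : (RingHom.ker π).IsMaximal :=
  RingHom.ker_isMaximal_of_surjective π h.surj

theorem IsDegOne.absNorm_ker (h : IsDegOne p π q) : absNorm (RingHom.ker π) = q := by
  rw [Ideal.absNorm_apply, Submodule.cardQuot_apply,
    Nat.card_congr (RingHom.quotientKerEquivOfSurjective h.surj).toEquiv,
    Nat.card_eq_fintype_card, h.card]

/-- Membership in a conjugate of `ker π`. -/
theorem mem_inv_smul_ker_iff (τ : K ≃ₐ[ℚ] K) (x : 𝓞 K) :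
    x ∈ τ⁻¹ • RingHom.ker π ↔ π (τ • x) = 0 := by
  rw [Ideal.mem_inv_pointwise_smul_iff, RingHom.mem_ker]

omit [Fact p.Prime] [IsCyclotomicExtension {p} ℚ K] in
/-- Every element of a field of prime cardinality is a natural number. -/
theorem Distinct.aux_exists_natCast (h : IsDegOne p π q) (y : F) : ∃ n : ℕ, y = (n : F) := by
  have : Fact q.Prime := ⟨h.prime⟩
  have : CharP F q := charP_of_card_eq_prime h.card
  have hinj : Function.Injective (ZMod.castHom (dvd_refl q) F) := RingHom.injective _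
  have hbij : Function.Bijective (ZMod.castHom (dvd_refl q) F) := by
    rw [Fintype.bijective_iff_injective_and_card]
    exact ⟨hinj, by rw [ZMod.card, h.card]⟩
  obtain ⟨z, rfl⟩ := hbij.2 y
  refine ⟨z.val, ?_⟩
  rw [← map_natCast (ZMod.castHom (dvd_refl q) F), ZMod.natCast_zmod_val]

omit [Fact p.Prime] [IsCyclotomicExtension {p} ℚ K] in
/-- An automorphism stabilising `ker π` acts trivially on the residue field. -/
theorem Distinct.aux_pi_smul (h : IsDegOne p π q) (ρ : K ≃ₐ[ℚ] K)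
    (hρ : ρ • RingHom.ker π = RingHom.ker π) (x : 𝓞 K) : π (ρ • x) = π x := by
  obtain ⟨n, hn⟩ := Distinct.aux_exists_natCast h (π x)
  have h1 : x - (n : 𝓞 K) ∈ RingHom.ker π := by
    rw [RingHom.mem_ker, map_sub, map_natCast, hn, sub_self]
  have h2 : ρ • (x - (n : 𝓞 K)) ∈ ρ • RingHom.ker π :=
    Ideal.smul_mem_pointwise_smul_iff.mpr h1
  rw [hρ, RingHom.mem_ker] at h2
  have h3 : ρ • (n : 𝓞 K) = (n : 𝓞 K) :=
    map_natCast (MulSemiringAction.toRingHom (K ≃ₐ[ℚ] K) (𝓞 K) ρ) n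
  rw [smul_sub, h3, map_sub, map_natCast, sub_eq_zero] at h2
  rw [h2, hn]

omit [IsCyclotomicExtension {p} ℚ K] in
/-- `π` is injective on the `p`-th roots of unity. -/
theorem Distinct.aux_eq_one (h : IsDegOne p π q) (ξ : 𝓞 K) (hξ : ξ ^ p = 1) (hπ : π ξ = 1) :
    ξ = 1 := by
  by_contra hne
  have hsum : ∑ i ∈ Finset.range p, ξ ^ i = 0 := by
    have h1 : (ξ - 1) * ∑ i ∈ Finset.range p, ξ ^ i = 0 := by
      rw [mul_geom_sum, hξ, sub_self]
    exact (mul_eq_zero.mp h1).resolve_left (sub_ne_zero.mpr hne)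
  have hp0 : (p : F) = 0 := by
    have h2 := congrArg π hsum
    rw [map_sum, map_zero] at h2
    simpa [map_pow, hπ] using h2
  have : Fact q.Prime := ⟨h.prime⟩
  have : CharP F q := charP_of_card_eq_prime h.card
  have hdvd : q ∣ p := (CharP.cast_eq_zero_iff F q p).mp hp0
  exact h.ne ((Nat.prime_dvd_prime_iff_eq h.prime (Fact.out : p.Prime)).mp hdvd)

/-- An automorphism stabilising `ker π` is trivial. -/
theorem Distinct.aux_eq_one_of_smul_ker_eq (h : IsDegOne p π q) (ρ : K ≃ₐ[ℚ] K)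
    (hρ : ρ • RingHom.ker π = RingHom.ker π) : ρ = 1 := by
  have hζ : IsPrimitiveRoot (IsCyclotomicExtension.zeta_spec p ℚ K).toInteger p :=
    (IsCyclotomicExtension.zeta_spec p ℚ K).toInteger_isPrimitiveRoot
  set ζ : 𝓞 K := (IsCyclotomicExtension.zeta_spec p ℚ K).toInteger with hζdef
  have hp : p ≠ 0 := (Fact.out : p.Prime).ne_zero
  have hpow : ζ ^ p = 1 := hζ.pow_eq_one
  have hsplit : ζ * ζ ^ (p - 1) = 1 := by
    rw [← pow_succ', Nat.sub_add_cancel (Nat.one_le_iff_ne_zero.mpr hp), hpow]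
  -- `ρ • ζ = ζ`
  have hξ1 : ((ρ • ζ) * ζ ^ (p - 1)) ^ p = 1 := by
    rw [mul_pow, ← smul_pow', hpow, smul_one, one_mul, ← pow_mul, mul_comm, pow_mul, hpow,
      one_pow]
  have hξ2 : π ((ρ • ζ) * ζ ^ (p - 1)) = 1 := by
    rw [map_mul, Distinct.aux_pi_smul h ρ hρ ζ, ← map_mul, hsplit, map_one]
  have hξ3 : (ρ • ζ) * ζ ^ (p - 1) = 1 := Distinct.aux_eq_one h _ hξ1 hξ2
  have hne : ζ ^ (p - 1) ≠ 0 := pow_ne_zero _ (hζ.ne_zero hp)
  have hfix : ρ • ζ = ζ := mul_right_cancel₀ hne (hξ3.trans hsplit.symm)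
  -- transfer to `K`
  have hfixK : ρ (IsCyclotomicExtension.zeta p ℚ K) = IsCyclotomicExtension.zeta p ℚ K :=
    congrArg (fun x : 𝓞 K => (x : K)) hfix
  have hhom : (ρ : K →ₐ[ℚ] K) = ((1 : K ≃ₐ[ℚ] K) : K →ₐ[ℚ] K) := by
    apply ((IsCyclotomicExtension.zeta_spec p ℚ K).powerBasis ℚ).algHom_ext
    rw [IsPrimitiveRoot.powerBasis_gen]
    exact hfixK
  exact AlgEquiv.coe_toAlgHom_injective hhom

/-- The decomposition group of a degree one prime (`q ≠ p`) is trivial. -/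
theorem IsDegOne.eq_of_smul_ker_eq (h : IsDegOne p π q) (τ τ' : K ≃ₐ[ℚ] K)
    (hτ : τ • RingHom.ker π = τ' • RingHom.ker π) : τ = τ' := by
  have hρ : (τ'⁻¹ * τ) • RingHom.ker π = RingHom.ker π := by
    rw [mul_smul, hτ, inv_smul_smul]
  exact (inv_mul_eq_one.mp (Distinct.aux_eq_one_of_smul_ker_eq h _ hρ)).symm

end Fermat.Agent.S14.Jacobi
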