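import Fermat.Agent.S14.Jacobi.Defs

/-!
# S14 / Jacobi: `𝔮 ∣ J(χ^a, χ^b)` for `1 ≤ a, b`, `a + b < p` (worker file)
(reduce modulo `𝔮`: a sum over `F` of a polynomial of degree `< q - 1`.)
-/

set_option autoImplicit false

namespace Fermat.Agent.S14.Jacobi

open NumberField Ideal Pointwise

variable {p : ℕ} [Fact p.Prime] {K : Type} [Field K] [NumberField K]
  [IsCyclotomicExtension {p} ℚ K] {F : Type} [Field F] [Fintype F] {π : 𝓞 K →+* F} {q : ℕ}

/-- In a finite field, `∑_x x^m (1-x)^n = 0` if `m + n < #F - 1`. -/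
theorem sum_pow_mul_one_sub_pow (F : Type) [Field F] [Fintype F] (m n : ℕ)
    (h : m + n < Fintype.card F - 1) : ∑ x : F, x ^ m * (1 - x) ^ n = 0 := by
  have hexp : ∀ x : F, x ^ m * (1 - x) ^ n =
      ∑ k ∈ Finset.range (n + 1), ((-1) ^ k * (n.choose k : F)) * x ^ (m + k) := by
    intro x
    have h1 : (1 - x) = -x + 1 := by ring
    rw [h1, add_pow, Finset.mul_sum]
    refine Finset.sum_congr rfl fun k _ => ?_
    rw [one_pow, mul_one, neg_pow, pow_add]
    ring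
  simp_rw [hexp]
  rw [Finset.sum_comm]
  refine Finset.sum_eq_zero fun k hk => ?_
  have hk' : k ≤ n := Nat.lt_succ_iff.mp (Finset.mem_range.mp hk)
  have hlt : m + k < Fintype.card F - 1 := by omega
  rw [← Finset.mul_sum, FiniteField.sum_pow_lt_card_sub_one F (m + k) hlt, mul_zero]

/-- `J(χ^a, χ^b) ∈ 𝔮 = ker π` for `1 ≤ a, b` and `a + b < p`. -/
theorem IsResChar.pi_jacobiSum_eq_zero (h : IsDegOne p π q) (hdvd : p ∣ q - 1)
    {χ : MulChar F (𝓞 K)} (hχ : IsResChar p π q χ) (a b : ℕ) (ha : 0 < a) (hb : 0 < b)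
    (hab : a + b < p) : π (jacobiSum (χ ^ a) (χ ^ b)) = 0 := by
  have hmp : (q - 1) / p * p = q - 1 := Nat.div_mul_cancel hdvd
  have hq2 : 2 ≤ q := h.prime.two_le
  have hm0 : 0 < (q - 1) / p := by
    rcases Nat.eq_zero_or_pos ((q - 1) / p) with h0 | h0
    · rw [h0, zero_mul] at hmp
      omega
    · exact h0
  have hterm : ∀ x : F, π ((χ ^ a) x * (χ ^ b) (1 - x)) =
      x ^ ((q - 1) / p * a) * (1 - x) ^ ((q - 1) / p * b) := by
    intro x
    rw [map_mul, MulChar.pow_apply' χ ha.ne' x, MulChar.pow_apply' χ hb.ne' (1 - x), map_pow,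
      map_pow, hχ.congr, hχ.congr, ← pow_mul, ← pow_mul]
  rw [jacobiSum, map_sum]
  simp_rw [hterm]
  apply sum_pow_mul_one_sub_pow
  rw [h.card]
  calc (q - 1) / p * a + (q - 1) / p * b = (q - 1) / p * (a + b) := by ring
    _ < (q - 1) / p * p := Nat.mul_lt_mul_of_pos_left hab hm0
    _ = q - 1 := hmp

end Fermat.Agent.S14.Jacobi
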