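import Fermat.Agent.S14.Jacobi.ResChar
import Fermat.Agent.S14.Jacobi.PowerSum
import Fermat.Agent.S14.Jacobi.Conj
import Fermat.Agent.S14.Jacobi.Distinct

/-!
# S14 / Jacobi: the factorisation `(J(χ,χ)) = ∏_{t=1}^{(p-1)/2} σ_t⁻¹ 𝔮` (assembly)
-/

set_option autoImplicit false

namespace Fermat.Agent.S14.Jacobi

open NumberField Ideal Pointwise

variable {p : ℕ} [Fact p.Prime] {K : Type} [Field K] [NumberField K]
  [IsCyclotomicExtension {p} ℚ K] {F : Type} [Field F] [Fintype F] {π : 𝓞 K →+* F} {q : ℕ}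

/-- In the ring of integers of a number field: an ideal contained in an ideal of the same nonzero
absolute norm is equal to it. -/
theorem Main.aux_eq_of_le_of_absNorm_eq {K : Type} [Field K] [NumberField K] (I P : Ideal (𝓞 K))
    (hle : I ≤ P) (hP : absNorm P ≠ 0) (h : absNorm I = absNorm P) : I = P := by
  obtain ⟨J, rfl⟩ := Ideal.dvd_iff_le.mpr hle
  rw [map_mul] at h
  have hJ : absNorm J = 1 :=
    Nat.eq_of_mul_eq_mul_left (Nat.pos_of_ne_zero hP) (h.trans (mul_one _).symm)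
  rw [Ideal.absNorm_eq_one_iff] at hJ
  rw [hJ, Ideal.mul_top]

/-- The conjugate `τ⁻¹ • ker π` is the kernel of `π ∘ τ`. -/
theorem Main.aux_inv_smul_ker (τ : K ≃ₐ[ℚ] K) :
    τ⁻¹ • RingHom.ker π =
      RingHom.ker (π.comp (MulSemiringAction.toRingHom (K ≃ₐ[ℚ] K) (𝓞 K) τ)) := by
  ext x
  rw [mem_inv_smul_ker_iff, RingHom.mem_ker]
  rfl

/-- `π ∘ τ` is again the residue map of a degree one prime. -/
theorem Main.aux_isDegOne_comp (h : IsDegOne p π q) (τ : K ≃ₐ[ℚ] K) :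
    IsDegOne p (π.comp (MulSemiringAction.toRingHom (K ≃ₐ[ℚ] K) (𝓞 K) τ)) q where
  surj := h.surj.comp (MulAction.surjective τ)
  card := h.card
  prime := h.prime
  ne := h.ne

/-- **Stickelberger factorisation of the Jacobi sum** (residue-map form). -/
theorem span_jacobiSum_eq_prod (hp2 : p ≠ 2) (h : IsDegOne p π q)
    {χ : MulChar F (𝓞 K)} (hχ : IsResChar p π q χ) (σ : ℕ → (K ≃ₐ[ℚ] K))
    (hσ : ∀ t ∈ Finset.Icc 1 ((p - 1) / 2),
      σ t (IsCyclotomicExtension.zeta p ℚ K) = IsCyclotomicExtension.zeta p ℚ K ^ t) :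
    span {jacobiSum χ χ} = ∏ t ∈ Finset.Icc 1 ((p - 1) / 2), (σ t)⁻¹ • RingHom.ker π := by
  have hp : p.Prime := Fact.out
  have hp2' := hp.two_le
  have hval : ∀ x : F, x ≠ 0 →
      ∃ i : ℕ, χ x = (IsCyclotomicExtension.zeta_spec p ℚ K).toInteger ^ i :=
    fun x hx => hχ.exists_pow_eq h x hx
  -- membership
  have hmem : ∀ t ∈ Finset.Icc 1 ((p - 1) / 2), jacobiSum χ χ ∈ (σ t)⁻¹ • RingHom.ker π := by
    intro t ht
    rw [mem_inv_smul_ker_iff]
    have ht' := Finset.mem_Icc.mp ht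
    rw [smul_jacobiSum χ hval (σ t) t (by omega) (hσ t ht)]
    exact hχ.pi_jacobiSum_eq_zero h h.dvd_sub_one t t (by omega) (by omega) (by omega)
  -- maximality and norm of the conjugates
  have hmax : ∀ t, ((σ t)⁻¹ • RingHom.ker π).IsMaximal := by
    intro t
    rw [Main.aux_inv_smul_ker]
    exact (Main.aux_isDegOne_comp h (σ t)).isMaximal_ker
  have hnorm : ∀ t, absNorm ((σ t)⁻¹ • RingHom.ker π) = q := by
    intro t
    rw [Main.aux_inv_smul_ker]
    exact (Main.aux_isDegOne_comp h (σ t)).absNorm_ker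
  -- the conjugates are pairwise distinct
  have hinj : ∀ t ∈ Finset.Icc 1 ((p - 1) / 2), ∀ t' ∈ Finset.Icc 1 ((p - 1) / 2),
      (σ t)⁻¹ • RingHom.ker π = (σ t')⁻¹ • RingHom.ker π → t = t' := by
    intro t ht t' ht' heq
    have h1 := h.eq_of_smul_ker_eq _ _ heq
    have h2 : σ t = σ t' := inv_injective h1
    have h3 := hσ t ht
    rw [h2, hσ t' ht'] at h3
    have hz := IsCyclotomicExtension.zeta_spec p ℚ K
    have ht1 := Finset.mem_Icc.mp ht
    have ht1' := Finset.mem_Icc.mp ht'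
    exact (hz.pow_inj (by omega) (by omega) h3).symm
  -- the product divides `(J)`
  have hdvd : (∏ t ∈ Finset.Icc 1 ((p - 1) / 2), (σ t)⁻¹ • RingHom.ker π) ∣
      span {jacobiSum χ χ} := by
    apply Finset.prod_dvd_of_coprime
    · intro t ht t' ht' hne
      have := hmax t
      have := hmax t'
      exact Ideal.isCoprime_of_isMaximal (fun heq => hne (hinj t ht t' ht' heq))
    · intro t ht
      rw [Ideal.dvd_iff_le, Ideal.span_singleton_le_iff_mem]
      exact hmem t ht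
  have hN : absNorm (∏ t ∈ Finset.Icc 1 ((p - 1) / 2), (σ t)⁻¹ • RingHom.ker π) =
      q ^ ((p - 1) / 2) := by
    rw [map_prod, Finset.prod_congr rfl (fun t _ => hnorm t), Finset.prod_const, Nat.card_Icc]
    simp
  apply Main.aux_eq_of_le_of_absNorm_eq _ _ (Ideal.le_of_dvd hdvd)
  · rw [hN]
    exact pow_ne_zero _ h.prime.ne_zero
  · rw [hN, absNorm_span_jacobiSum hp2 h hχ hval]

/-- **Stickelberger factorisation, ideal form**: for a prime ideal `𝔮` of `𝓞 K` of prime absolute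
norm `q ≠ p` the ideal `∏_{t=1}^{(p-1)/2} σ_t⁻¹ 𝔮` is principal (generated by a Jacobi sum). -/
theorem exists_generator (hp2 : p ≠ 2) (𝔮 : Ideal (𝓞 K)) (q : ℕ) (hq : q.Prime) (hqp : q ≠ p)
    (hN : absNorm 𝔮 = q) (σ : ℕ → (K ≃ₐ[ℚ] K))
    (hσ : ∀ t ∈ Finset.Icc 1 ((p - 1) / 2),
      σ t (IsCyclotomicExtension.zeta p ℚ K) = IsCyclotomicExtension.zeta p ℚ K ^ t) :
    ∃ J : 𝓞 K, span {J} = ∏ t ∈ Finset.Icc 1 ((p - 1) / 2), (σ t)⁻¹ • 𝔮 := by
  have hprime : 𝔮.IsPrime :=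
    Ideal.isPrime_of_irreducible_absNorm (hN ▸ Nat.prime_iff.mp hq).irreducible
  have hbot : 𝔮 ≠ ⊥ := by
    rintro rfl
    rw [Ideal.absNorm_bot] at hN
    exact hq.ne_zero hN.symm
  have hmax : 𝔮.IsMaximal := hprime.isMaximal hbot
  letI : Field (𝓞 K ⧸ 𝔮) := Ideal.Quotient.field 𝔮
  have hfin : Finite (𝓞 K ⧸ 𝔮) := by
    apply Nat.finite_of_card_ne_zero
    have : Nat.card (𝓞 K ⧸ 𝔮) = q := by
      rw [← hN, Ideal.absNorm_apply, Submodule.cardQuot_apply]
    rw [this]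
    exact hq.ne_zero
  letI : Fintype (𝓞 K ⧸ 𝔮) := Fintype.ofFinite _
  have hdeg : IsDegOne p (Ideal.Quotient.mk 𝔮) q :=
    { surj := Ideal.Quotient.mk_surjective
      card := by
        rw [← hN, Ideal.absNorm_apply, Submodule.cardQuot_apply, Nat.card_eq_fintype_card]
      prime := hq
      ne := hqp }
  obtain ⟨χ, hχ⟩ := hdeg.exists_resChar
  refine ⟨jacobiSum χ χ, ?_⟩
  have := span_jacobiSum_eq_prod hp2 hdeg hχ σ hσ
  rwa [Ideal.mk_ker] at this

/-- **Interface form** (exactly the statement of `Fermat.Agent.S14.stickelberger`,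
file `Fermat/Agent/S14/Iface/Stickelberger.lean`). -/
theorem main {p : ℕ} [Fact p.Prime] (hp : p ≠ 2)
    (K : Type) [Field K] [NumberField K] [IsCyclotomicExtension {p} ℚ K]
    (ζ : K) (hζ : IsPrimitiveRoot ζ p)
    (s : ℕ → (K ≃ₐ[ℚ] K)) (hs : ∀ a : ℕ, 0 < a → a < p → s a ζ = ζ ^ a)
    (q : Ideal (𝓞 K)) (hq : q.IsPrime) (hqp : ((p : ℕ) : 𝓞 K) ∉ q)
    (hdeg : (Ideal.absNorm q).Prime) :
    ∃ J : 𝓞 K, Ideal.span {J} =
      ∏ a ∈ (Finset.Ioo 0 p).filter (fun a => 2 * a < p), ((s a)⁻¹ • q : Ideal (𝓞 K)) := by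
  have hpp : p.Prime := Fact.out
  have hp2' := hpp.two_le
  have hset : (Finset.Ioo 0 p).filter (fun a => 2 * a < p) = Finset.Icc 1 ((p - 1) / 2) := by
    ext a
    simp only [Finset.mem_filter, Finset.mem_Ioo, Finset.mem_Icc]
    omega
  rw [hset]
  have hne : Ideal.absNorm q ≠ p := by
    intro h
    apply hqp
    rw [← h]
    exact Ideal.absNorm_mem q
  -- `zeta` is a power of `ζ`
  have hz := IsCyclotomicExtension.zeta_spec p ℚ K
  have : NeZero p := ⟨hpp.ne_zero⟩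
  obtain ⟨j, -, hj⟩ := hζ.eq_pow_of_pow_eq_one hz.pow_eq_one
  apply exists_generator hp q (Ideal.absNorm q) hdeg hne rfl s
  intro t ht
  have ht' := Finset.mem_Icc.mp ht
  rw [← hj, map_pow, hs t (by omega) (by omega), ← pow_mul, ← pow_mul, mul_comm]

end Fermat.Agent.S14.Jacobi
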