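import Mathlib

/-!
# S14 / Jacobi sums: the Stickelberger factorisation `(J(χ,χ)) = ∏_{t=1}^{(p-1)/2} σ_t⁻¹ 𝔮`
for a degree one prime `𝔮` of the `p`-th cyclotomic field (theory T3; sub-architect: helper7; skeleton drafted by helper16).

Setting of the whole theory (all files): `p` an odd prime, `K` the `p`-th cyclotomic field,
`F` a finite field with `q` elements (`q` prime, `q ≠ p`), `π : 𝓞 K →+* F` a surjective ring
homomorphism; `𝔮 = RingHom.ker π` is then a prime of degree one above `q`.
`ζ = (zeta_spec p ℚ K).toInteger`.  The automorphism group `K ≃ₐ[ℚ] K` acts on `𝓞 K` and (with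
`open Pointwise`) on `Ideal (𝓞 K)`.
-/

set_option autoImplicit false

namespace Fermat.Agent.S14.Jacobi

open NumberField Ideal Pointwise

/-- The hypotheses on the residue map `π : 𝓞 K →+* F` of a degree one prime above `q ≠ p`. -/
structure IsDegOne (p : ℕ) {K : Type} [Field K] [NumberField K] {F : Type} [Field F] [Fintype F]
    (π : 𝓞 K →+* F) (q : ℕ) : Prop where
  surj : Function.Surjective π
  card : Fintype.card F = q
  prime : q.Prime
  ne : q ≠ p

/-- `χ` is "the" `p`-th power residue character of `π`: `χ(x) ≡ x^((q-1)/p)` modulo `ker π`. -/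
structure IsResChar (p : ℕ) {K : Type} [Field K] [NumberField K] {F : Type} [Field F] [Fintype F]
    (π : 𝓞 K →+* F) (q : ℕ) (χ : MulChar F (𝓞 K)) : Prop where
  congr : ∀ x : F, π (χ x) = x ^ ((q - 1) / p)
  pow_eq_one : χ ^ p = 1
  ne_one : χ ≠ 1

end Fermat.Agent.S14.Jacobi
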