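import Fermat.Agent.S14.Jacobi.Defs

/-!
# S14 / Jacobi: existence of the power residue character (worker file)
-/

set_option autoImplicit false

namespace Fermat.Agent.S14.Jacobi

open NumberField Ideal Pointwise

variable {p : ℕ} [Fact p.Prime] {K : Type} [Field K] [NumberField K]
  [IsCyclotomicExtension {p} ℚ K] {F : Type} [Field F] [Fintype F] {π : 𝓞 K →+* F} {q : ℕ}

omit [IsCyclotomicExtension {p} ℚ K] in
/-- `p` is nonzero in the residue field (whose characteristic is `q ≠ p`). -/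
theorem ResChar.aux_natCast_ne_zero (h : IsDegOne p π q) : (p : F) ≠ 0 := by
  have hp : p.Prime := Fact.out
  intro hp0
  have hq0 : (q : F) = 0 := by
    rw [← h.card]
    exact FiniteField.cast_card_eq_zero F
  have hcop : Nat.Coprime p q := (Nat.coprime_primes hp h.prime).mpr (Ne.symm h.ne)
  obtain ⟨a, b, hab⟩ := Nat.isCoprime_iff_coprime.mpr hcop
  have h1 : ((a * (p : ℤ) + b * (q : ℤ) : ℤ) : F) = 1 := by
    rw [hab, Int.cast_one]
  rw [Int.cast_add, Int.cast_mul, Int.cast_mul, Int.cast_natCast, Int.cast_natCast, hp0, hq0,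
    mul_zero, mul_zero, add_zero] at h1
  exact zero_ne_one h1

/-- The image of `ζ` in the residue field is a primitive `p`-th root of unity. -/
theorem IsDegOne.isPrimitiveRoot (h : IsDegOne p π q) :
    IsPrimitiveRoot (π (IsCyclotomicExtension.zeta_spec p ℚ K).toInteger) p := by
  have hp : p.Prime := Fact.out
  have hζ : IsPrimitiveRoot (IsCyclotomicExtension.zeta_spec p ℚ K).toInteger p :=
    (IsCyclotomicExtension.zeta_spec p ℚ K).toInteger_isPrimitiveRoot
  have hpow : (π (IsCyclotomicExtension.zeta_spec p ℚ K).toInteger) ^ p = 1 := by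
    rw [← map_pow, hζ.pow_eq_one, map_one]
  have hne : π (IsCyclotomicExtension.zeta_spec p ℚ K).toInteger ≠ 1 := by
    intro h1
    have hroot : Polynomial.eval (IsCyclotomicExtension.zeta_spec p ℚ K).toInteger
        (Polynomial.cyclotomic p (𝓞 K)) = 0 := hζ.isRoot_cyclotomic hp.pos
    have h2 : Polynomial.eval (π (IsCyclotomicExtension.zeta_spec p ℚ K).toInteger)
        (Polynomial.cyclotomic p F) = 0 := by
      rw [← Polynomial.map_cyclotomic p π, Polynomial.eval_map, Polynomial.eval₂_hom, hroot,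
        map_zero]
    rw [h1, Polynomial.eval_one_cyclotomic_prime] at h2
    exact ResChar.aux_natCast_ne_zero h h2
  rw [IsPrimitiveRoot.iff_orderOf]
  exact orderOf_eq_prime hpow hne

/-- `q ≡ 1 mod p`. -/
theorem IsDegOne.dvd_sub_one (h : IsDegOne p π q) : p ∣ q - 1 := by
  have hp : p.Prime := Fact.out
  have hprim := h.isPrimitiveRoot
  have hne : π (IsCyclotomicExtension.zeta_spec p ℚ K).toInteger ≠ 0 := hprim.ne_zero hp.ne_zero
  have h1 := FiniteField.pow_card_sub_one_eq_one _ hne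
  rw [h.card] at h1
  exact hprim.dvd_of_pow_eq_one _ h1

/-- `π` is injective on `p`-th roots of unity. -/
theorem ResChar.aux_unique (h : IsDegOne p π q) (a b : 𝓞 K) (ha : a ^ p = 1) (hb : b ^ p = 1)
    (hab : π a = π b) : a = b := by
  have hζ : IsPrimitiveRoot (IsCyclotomicExtension.zeta_spec p ℚ K).toInteger p :=
    (IsCyclotomicExtension.zeta_spec p ℚ K).toInteger_isPrimitiveRoot
  obtain ⟨i, hi, rfl⟩ := hζ.eq_pow_of_pow_eq_one ha
  obtain ⟨j, hj, rfl⟩ := hζ.eq_pow_of_pow_eq_one hb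
  rw [map_pow, map_pow] at hab
  rw [h.isPrimitiveRoot.pow_inj hi hj hab]

/-- Every `(q-1)/p`-th power of a unit of `F` lifts to a `p`-th root of unity. -/
theorem ResChar.aux_exists (h : IsDegOne p π q) (x : Fˣ) :
    ∃ a : 𝓞 K, a ^ p = 1 ∧ π a = (x : F) ^ ((q - 1) / p) := by
  have hζ : IsPrimitiveRoot (IsCyclotomicExtension.zeta_spec p ℚ K).toInteger p :=
    (IsCyclotomicExtension.zeta_spec p ℚ K).toInteger_isPrimitiveRoot
  have hx : ((x : F) ^ ((q - 1) / p)) ^ p = 1 := by
    rw [← pow_mul, Nat.div_mul_cancel h.dvd_sub_one, ← h.card]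
    exact FiniteField.pow_card_sub_one_eq_one _ x.ne_zero
  obtain ⟨i, -, hi⟩ := h.isPrimitiveRoot.eq_pow_of_pow_eq_one hx
  refine ⟨(IsCyclotomicExtension.zeta_spec p ℚ K).toInteger ^ i, ?_, ?_⟩
  · rw [← pow_mul, mul_comm, pow_mul, hζ.pow_eq_one, one_pow]
  · rw [map_pow, hi]

/-- The chosen lift of `x ^ ((q-1)/p)` to a `p`-th root of unity. -/
noncomputable def ResChar.aux_val (h : IsDegOne p π q) (x : Fˣ) : 𝓞 K :=
  Classical.choose (ResChar.aux_exists h x)

theorem ResChar.aux_val_pow (h : IsDegOne p π q) (x : Fˣ) : ResChar.aux_val h x ^ p = 1 :=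
  (Classical.choose_spec (ResChar.aux_exists h x)).1

theorem ResChar.aux_val_map (h : IsDegOne p π q) (x : Fˣ) :
    π (ResChar.aux_val h x) = (x : F) ^ ((q - 1) / p) :=
  (Classical.choose_spec (ResChar.aux_exists h x)).2

theorem ResChar.aux_val_one (h : IsDegOne p π q) : ResChar.aux_val h 1 = 1 := by
  refine ResChar.aux_unique h _ _ (ResChar.aux_val_pow h 1) (one_pow p) ?_
  rw [ResChar.aux_val_map, Units.val_one, one_pow, map_one]

theorem ResChar.aux_val_mul (h : IsDegOne p π q) (x y : Fˣ) :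
    ResChar.aux_val h (x * y) = ResChar.aux_val h x * ResChar.aux_val h y := by
  refine ResChar.aux_unique h _ _ (ResChar.aux_val_pow h (x * y)) ?_ ?_
  · rw [mul_pow, ResChar.aux_val_pow, ResChar.aux_val_pow, one_mul]
  · rw [map_mul, ResChar.aux_val_map, ResChar.aux_val_map, ResChar.aux_val_map, Units.val_mul,
      mul_pow]

/-- The residue character as a homomorphism of unit groups. -/
noncomputable def ResChar.aux_hom (h : IsDegOne p π q) : Fˣ →* (𝓞 K)ˣ where
  toFun x := Units.ofPowEqOne (ResChar.aux_val h x) p (ResChar.aux_val_pow h x)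
    (Fact.out : p.Prime).ne_zero
  map_one' := by
    apply Units.ext
    rw [Units.val_ofPowEqOne, Units.val_one]
    exact ResChar.aux_val_one h
  map_mul' x y := by
    apply Units.ext
    rw [Units.val_mul, Units.val_ofPowEqOne, Units.val_ofPowEqOne, Units.val_ofPowEqOne]
    exact ResChar.aux_val_mul h x y

theorem ResChar.aux_hom_val (h : IsDegOne p π q) (x : Fˣ) :
    ((ResChar.aux_hom h x : (𝓞 K)ˣ) : 𝓞 K) = ResChar.aux_val h x :=
  rfl

/-- Existence of the `p`-th power residue character. -/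
theorem IsDegOne.exists_resChar (h : IsDegOne p π q) :
    ∃ χ : MulChar F (𝓞 K), IsResChar p π q χ := by
  have hp : p.Prime := Fact.out
  have hq1 : 0 < q - 1 := Nat.sub_pos_of_lt h.prime.one_lt
  have hm : p * ((q - 1) / p) = q - 1 := Nat.mul_div_cancel' h.dvd_sub_one
  have hm0 : (q - 1) / p ≠ 0 := by
    intro h0
    rw [h0, mul_zero] at hm
    omega
  have hmlt : (q - 1) / p < q - 1 := by
    have h2 := hp.two_le
    have h3 := Nat.pos_of_ne_zero hm0
    nlinarith
  refine ⟨MulChar.ofUnitHom (ResChar.aux_hom h), ?_, ?_, ?_⟩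
  · intro x
    by_cases hx : x = 0
    · subst hx
      rw [MulChar.map_zero, map_zero, zero_pow hm0]
    · have hxu : x = ((Units.mk0 x hx : Fˣ) : F) := rfl
      rw [hxu, MulChar.ofUnitHom_coe, ResChar.aux_hom_val, ResChar.aux_val_map]
  · apply MulChar.ext
    intro u
    rw [MulChar.pow_apply_coe, MulChar.ofUnitHom_coe, MulChar.one_apply_coe,
      ResChar.aux_hom_val, ResChar.aux_val_pow]
  · intro hχ
    have hall : ∀ x : Fˣ, x ^ ((q - 1) / p) = 1 := by
      intro x
      apply Units.ext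
      have h1 : (MulChar.ofUnitHom (ResChar.aux_hom h)) (x : F) = 1 := by
        rw [hχ, MulChar.one_apply_coe]
      rw [MulChar.ofUnitHom_coe, ResChar.aux_hom_val] at h1
      rw [Units.val_pow_eq_pow_val, Units.val_one, ← ResChar.aux_val_map h x, h1, map_one]
    rw [FiniteField.forall_pow_eq_one_iff, h.card] at hall
    exact absurd (Nat.le_of_dvd (Nat.pos_of_ne_zero hm0) hall) (not_le.mpr hmlt)

set_option linter.unusedVariables false in
/-- The values of a residue character on units are powers of `ζ`. -/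
theorem IsResChar.exists_pow_eq (h : IsDegOne p π q) {χ : MulChar F (𝓞 K)} (hχ : IsResChar p π q χ)
    (x : F) (hx : x ≠ 0) :
    ∃ i : ℕ, χ x = (IsCyclotomicExtension.zeta_spec p ℚ K).toInteger ^ i := by
  have hp : p.Prime := Fact.out
  have hζ : IsPrimitiveRoot (IsCyclotomicExtension.zeta_spec p ℚ K).toInteger p :=
    (IsCyclotomicExtension.zeta_spec p ℚ K).toInteger_isPrimitiveRoot
  have h1 : χ x ^ p = 1 := by
    rw [← MulChar.pow_apply' χ hp.ne_zero, hχ.pow_eq_one,
      MulChar.one_apply (isUnit_iff_ne_zero.mpr hx)]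
  obtain ⟨i, -, hi⟩ := hζ.eq_pow_of_pow_eq_one h1
  exact ⟨i, hi.symm⟩

set_option linter.unusedSectionVars false in
/-- `χ ^ t ≠ 1` when `p ∤ t`. -/
theorem IsResChar.pow_ne_one {χ : MulChar F (𝓞 K)} (hχ : IsResChar p π q χ) (t : ℕ)
    (ht : ¬ p ∣ t) : χ ^ t ≠ 1 := by
  have hp : p.Prime := Fact.out
  intro h1
  have hd1 : orderOf χ ∣ t := orderOf_dvd_of_pow_eq_one h1
  have hd2 : orderOf χ ∣ p := orderOf_dvd_of_pow_eq_one hχ.pow_eq_one
  rcases (Nat.dvd_prime hp).mp hd2 with h | h
  · exact hχ.ne_one (orderOf_eq_one_iff.mp h)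
  · exact ht (h ▸ hd1)

end Fermat.Agent.S14.Jacobi
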